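/-
S28 helper (helper739): piece [L], integrality.  From the modular polynomials `Φ_p` at the
primes `p ∣ N`, every `j(q^d)`, `d ∣ N`, is integral over `ℤ[j]` (the `integral` field of
`CoreData`).
-/
import Mathlib
import Fermat.Prelude.Def_ModularCurve_X0ModL
import Fermat.Agent.S28.Defs
import Fermat.Agent.S28.H145.PrimeDegree

set_option autoImplicit false

noncomputable section

open ModularCurve HahnSeries Polynomial

namespace Fermat.Agent.S28.H739

/-- Transitivity of integrality in the form we need: if `y` is integral over `R` (along `f`) and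
`x` is a root of a monic polynomial whose coefficients are `ℤ`-polynomials in `y`, then `x` is
integral over `R`. -/
theorem isIntegralElem_of_eval₂ {R S : Type*} [CommRing R] [CommRing S] (f : R →+* S) {y x : S}
    (hy : f.IsIntegralElem y) (g : Polynomial ℤ →+* S) (hg : g Polynomial.X = y)
    (Φ : Polynomial (Polynomial ℤ)) (hΦ : Φ.Monic) (h : Φ.eval₂ g x = 0) :
    f.IsIntegralElem x := by
  let _ : Algebra R S := f.toAlgebra
  have hy' : IsIntegral R y := hy
  have hT : Algebra.IsIntegral R (Algebra.adjoin R ({y} : Set S)) :=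
    Algebra.IsIntegral.adjoin (fun z hz => by
      rw [Set.mem_singleton_iff] at hz
      rw [hz]
      exact hy')
  let g' : Polynomial ℤ →+* Algebra.adjoin R ({y} : Set S) :=
    Polynomial.eval₂RingHom (Int.castRingHom _) ⟨y, Algebra.subset_adjoin rfl⟩
  have hg' : (algebraMap (Algebra.adjoin R ({y} : Set S)) S).comp g' = g := by
    refine Polynomial.ringHom_ext' (Subsingleton.elim _ _) ?_
    simp [g', hg]
  have hx : IsIntegral (Algebra.adjoin R ({y} : Set S)) x :=
    ⟨Φ.map g', hΦ.map _, by rw [Polynomial.eval₂_map, hg']; exact h⟩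
  exact isIntegral_trans x hx

/-- `Φ_p(j(q^e), j(q^{ep})) = 0` in `ℤ((q))`. -/
theorem modPoly_eval_level {p : ℕ} [NeZero p] (Φ : ModPolyData p) (e : ℕ) [NeZero e]
    [NeZero (e * p)] :
    Φ.Φ.eval₂ (evalAt (qExpand ℤ e (jqModC ℤ))) (qExpand ℤ (e * p) (jqModC ℤ)) = 0 := by
  have h := congrArg (qExpand ℤ e) Φ.eval_jp
  rwa [Polynomial.hom_eval₂, H145.qExpand_comp_evalAt, qExpand_qExpand, map_zero] at h

/-- **Integrality.** -/
theorem exists_monic_of_modPolyData (N : ℕ)
    (hΦ : ∀ (p : ℕ) [NeZero p], p.Prime → p ∣ N → Nonempty (ModPolyData p)) :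
    ∀ (d : ℕ) [NeZero d], d ∣ N →
      ∃ P : Polynomial (Polynomial ℤ), P.Monic ∧
        P.eval₂ (evalAt (jqModC ℤ)) (qExpand ℤ d (jqModC ℤ)) = 0 := by
  intro d
  induction d using Nat.strong_induction_on with
  | _ d ih =>
    intro inst hd
    by_cases hd1 : d = 1
    · subst hd1
      refine ⟨Polynomial.X - Polynomial.C Polynomial.X, Polynomial.monic_X_sub_C _, ?_⟩
      rw [qExpand_one_apply]
      simp [evalAt]
    obtain ⟨p, hp, hpd⟩ := Nat.exists_prime_and_dvd hd1
    obtain ⟨e, he⟩ := hpd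
    have hde : d = e * p := by rw [he, mul_comm]
    subst hde
    have he0 : e ≠ 0 := by
      rintro rfl
      exact (NeZero.ne (0 * p)) (zero_mul p)
    have inste : NeZero e := ⟨he0⟩
    have instp : NeZero p := ⟨hp.ne_zero⟩
    have hlt : e < e * p := by
      have := hp.one_lt
      have := Nat.pos_of_ne_zero he0
      nlinarith
    have heN : e ∣ N := (Dvd.intro p rfl).trans hd
    have hpN : p ∣ N := (Dvd.intro_left e rfl).trans hd
    obtain ⟨Φ⟩ := hΦ p hp hpN
    have IH : (evalAt (jqModC ℤ)).IsIntegralElem (qExpand ℤ e (jqModC ℤ)) := ih e hlt heN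
    exact isIntegralElem_of_eval₂ (evalAt (jqModC ℤ)) IH (evalAt (qExpand ℤ e (jqModC ℤ)))
      (by simp [evalAt]) Φ.Φ Φ.monic (modPoly_eval_level Φ e)

end Fermat.Agent.S28.H739

end
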