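/-
S28 helper (helper739): piece [L], numerics.  A "degree function" `D` on the divisors of `N`
which is bounded above by `ψ`, multiplicative along towers (divisibility), satisfies the lower
tower step `p · D M ≤ D (M p)` and has `D p = p + 1` at primes, equals `ψ`.
-/
import Mathlib
import Fermat.Prelude.Def_ModularCurve_X0ModL
import Fermat.Agent.S28.H626.Upper

set_option autoImplicit false

open ModularCurve

namespace Fermat.Agent.S28.H739

theorem dedekindPsi_pos {n : ℕ} (hn : n ≠ 0) : 0 < dedekindPsi n := by
  unfold dedekindPsi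
  have h1 : (1 : ℕ) ∈ n.divisors.filter Squarefree := by
    simp [hn]
  have h2 : n / 1 ≤ ∑ d ∈ n.divisors.filter Squarefree, n / d :=
    Finset.single_le_sum (f := fun d => n / d) (fun _ _ => Nat.zero_le _) h1
  rw [Nat.div_one] at h2
  exact lt_of_lt_of_le (Nat.pos_of_ne_zero hn) h2

/-- the squarefree two-prime step -/
theorem eq_of_two_primes {p q P D : ℕ} (hpq : p ≠ q) (hP : 0 < P)
    (hU : D ≤ (p + 1) * ((q + 1) * P))
    (h1 : p * ((q + 1) * P) ≤ D) (h2 : q * ((p + 1) * P) ≤ D)
    (d1 : (q + 1) * P ∣ D) (d2 : (p + 1) * P ∣ D) :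
    D = (p + 1) * ((q + 1) * P) := by
  obtain ⟨a, ha⟩ := d1
  obtain ⟨b, hb⟩ := d2
  have hQ : 0 < (q + 1) * P := Nat.mul_pos (Nat.succ_pos _) hP
  have hR : 0 < (p + 1) * P := Nat.mul_pos (Nat.succ_pos _) hP
  have ha1 : p ≤ a := by
    rw [ha, mul_comm ((q + 1) * P) a] at h1
    exact Nat.le_of_mul_le_mul_right h1 hQ
  have ha2 : a ≤ p + 1 := by
    rw [ha, mul_comm ((q + 1) * P) a] at hU
    exact Nat.le_of_mul_le_mul_right hU hQ
  have hb1 : q ≤ b := by
    rw [hb, mul_comm ((p + 1) * P) b] at h2
    exact Nat.le_of_mul_le_mul_right h2 hR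
  have hb2 : b ≤ q + 1 := by
    have hU' : D ≤ (q + 1) * ((p + 1) * P) := by
      calc D ≤ (p + 1) * ((q + 1) * P) := hU
        _ = (q + 1) * ((p + 1) * P) := by ring
    rw [hb, mul_comm ((p + 1) * P) b] at hU'
    exact Nat.le_of_mul_le_mul_right hU' hR
  rcases Nat.eq_or_lt_of_le ha2 with h | h
  · rw [ha, h]; ring
  rcases Nat.eq_or_lt_of_le hb2 with h' | h'
  · rw [hb, h']; ring
  exfalso
  have hap : a = p := by omega
  have hbq : b = q := by omega
  rw [hap] at ha
  rw [hbq] at hb
  have h3 : (q + 1) * P * p = (p + 1) * P * q := by rw [← ha, ← hb]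
  have h4 : ((q + 1) * p) * P = ((p + 1) * q) * P := by
    calc ((q + 1) * p) * P = (q + 1) * P * p := by ring
      _ = (p + 1) * P * q := h3
      _ = ((p + 1) * q) * P := by ring
  have h5 : (q + 1) * p = (p + 1) * q := Nat.eq_of_mul_eq_mul_right hP h4
  apply hpq
  have h6 : q * p + p = p * q + q := by
    calc q * p + p = (q + 1) * p := by ring
      _ = (p + 1) * q := h5
      _ = p * q + q := by ring
  have h7 : q * p = p * q := mul_comm q p
  omega

/-- **Numerics.** -/
theorem degree_eq_dedekindPsi (D : ℕ → ℕ) (N : ℕ) (hN : N ≠ 0)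
    (hD1 : D 1 = 1)
    (hU : ∀ M, M ∣ N → D M ≤ dedekindPsi M)
    (hdvd : ∀ M M', M ∣ M' → M' ∣ N → D M ∣ D M')
    (hstep : ∀ M p, p.Prime → M * p ∣ N → p * D M ≤ D (M * p))
    (hprime : ∀ p, p.Prime → p ∣ N → D p = p + 1) :
    D N = dedekindPsi N := by
  have main : ∀ n : ℕ, ∀ M : ℕ, M = n → M ∣ N → D M = dedekindPsi M := by
    intro n
    induction n using Nat.strong_induction_on with
    | _ n ih =>
      intro M hMn hMN
      have hM0 : M ≠ 0 := fun h => hN (by rw [h] at hMN; exact Nat.eq_zero_of_zero_dvd hMN)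
      by_cases hM1 : M = 1
      · rw [hM1, hD1, dedekindPsi_one]
      by_cases hsq : Squarefree M
      · -- squarefree case
        obtain ⟨p, hp, hpM⟩ := Nat.exists_prime_and_dvd hM1
        obtain ⟨M', hM'⟩ := hpM
        have hMM' : M = M' * p := by rw [hM', mul_comm]
        have hM'0 : M' ≠ 0 := by
          rintro rfl
          exact hM0 (by rw [hMM', zero_mul])
        have hpM' : ¬ p ∣ M' := by
          intro h
          obtain ⟨c, hc⟩ := h
          have : p * p ∣ M := ⟨c, by rw [hMM', hc]; ring⟩
          exact hp.not_isUnit (hsq p this)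
        by_cases hM'1 : M' = 1
        · have hMp : M = p := by rw [hMM', hM'1, one_mul]
          rw [hMp, hprime p hp (hMp ▸ hMN)]
          have := H626.psi_mul_prime_of_not_dvd (N := 1) one_ne_zero hp
            (by simpa using hp.one_lt.ne')
          rw [one_mul, dedekindPsi_one, mul_one] at this
          exact this.symm
        · obtain ⟨q, hq, hqM'⟩ := Nat.exists_prime_and_dvd hM'1
          obtain ⟨M'', hM''⟩ := hqM'
          have hM'M'' : M' = M'' * q := by rw [hM'', mul_comm]
          have hM''0 : M'' ≠ 0 := by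
            rintro rfl
            exact hM'0 (by rw [hM'M'', zero_mul])
          have hpq : p ≠ q := by
            rintro rfl
            exact hpM' ⟨M'', hM''⟩
          have hqM'' : ¬ q ∣ M'' := by
            intro h
            obtain ⟨c, hc⟩ := h
            have : q * q ∣ M := ⟨c * p, by rw [hMM', hM'M'', hc]; ring⟩
            exact hq.not_isUnit (hsq q this)
          have hpM'' : ¬ p ∣ M'' := fun h => hpM' (by rw [hM'M'']; exact h.mul_right q)
          set M₂ := M'' * p with hM₂
          have hM₂0 : M₂ ≠ 0 := Nat.mul_ne_zero hM''0 hp.ne_zero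
          have hMM₂ : M = M₂ * q := by rw [hMM', hM'M'', hM₂]; ring
          have hqM₂ : ¬ q ∣ M₂ := by
            intro h
            rcases (Nat.Prime.dvd_mul hq).mp h with h | h
            · exact hqM'' h
            · exact hpq ((Nat.prime_dvd_prime_iff_eq hq hp).mp h).symm
          have hM'lt : M' < n := by
            rw [← hMn, hMM']
            have := hp.one_lt
            have := Nat.pos_of_ne_zero hM'0
            nlinarith
          have hM₂lt : M₂ < n := by
            rw [← hMn, hMM₂]
            have := hq.one_lt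
            have := Nat.pos_of_ne_zero hM₂0
            nlinarith
          have hM'N : M' ∣ N := (Dvd.intro p hMM'.symm).trans hMN
          have hM₂N : M₂ ∣ N := (Dvd.intro q hMM₂.symm).trans hMN
          have IH1 := ih M' hM'lt M' rfl hM'N
          have IH2 := ih M₂ hM₂lt M₂ rfl hM₂N
          have ψ1 : dedekindPsi M' = (q + 1) * dedekindPsi M'' := by
            rw [hM'M'']; exact H626.psi_mul_prime_of_not_dvd hM''0 hq hqM''
          have ψ2 : dedekindPsi M₂ = (p + 1) * dedekindPsi M'' :=
            H626.psi_mul_prime_of_not_dvd hM''0 hp hpM''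
          have ψ3 : dedekindPsi M = (p + 1) * ((q + 1) * dedekindPsi M'') := by
            rw [← ψ1, hMM']; exact H626.psi_mul_prime_of_not_dvd hM'0 hp hpM'
          rw [ψ3]
          refine eq_of_two_primes hpq (dedekindPsi_pos hM''0) ?_ ?_ ?_ ?_ ?_
          · rw [← ψ3]; exact hU M hMN
          · rw [← ψ1, ← IH1]
            have := hstep M' p hp (by rw [← hMM']; exact hMN)
            rwa [← hMM'] at this
          · rw [← ψ2, ← IH2]
            have := hstep M₂ q hq (by rw [← hMM₂]; exact hMN)
            rwa [← hMM₂] at this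
          · rw [← ψ1, ← IH1]
            exact hdvd M' M (Dvd.intro p hMM'.symm) hMN
          · rw [← ψ2, ← IH2]
            exact hdvd M₂ M (Dvd.intro q hMM₂.symm) hMN
      · -- a square factor
        rw [Nat.squarefree_iff_prime_squarefree] at hsq
        push Not at hsq
        obtain ⟨r, hr, c, hc⟩ := hsq
        set M' := r * c with hM'
        have hMM' : M = M' * r := by rw [hc, hM']; ring
        have hM'0 : M' ≠ 0 := by
          intro h
          exact hM0 (by rw [hMM', h, zero_mul])
        have hrM' : r ∣ M' := Dvd.intro c rfl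
        have hM'lt : M' < n := by
          rw [← hMn, hMM']
          have := hr.one_lt
          have := Nat.pos_of_ne_zero hM'0
          nlinarith
        have hM'N : M' ∣ N := (Dvd.intro r hMM'.symm).trans hMN
        have IH := ih M' hM'lt M' rfl hM'N
        have ψ1 : dedekindPsi M = r * dedekindPsi M' := by
          rw [hMM']; exact H626.psi_mul_prime_of_dvd hM'0 hr hrM'
        refine le_antisymm (hU M hMN) ?_
        rw [ψ1, ← IH]
        have := hstep M' r hr (by rw [← hMM']; exact hMN)
        rwa [← hMM'] at this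
  exact main N N rfl dvd_rfl

end Fermat.Agent.S28.H739
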