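/-
S28 helper (helper739): piece [L], lower bound.  The tower step
`p · [k(j(q^d) : d ∣ M) : k(j)] ≤ [k(j(q^d) : d ∣ Mp) : k(j)]` for every level `M` and every
`p` with prime-level degree `p + 1` (leaf [L.B2]); no roots of unity, no conjugates.
-/
import Mathlib
import Fermat.Prelude.Def_ModularCurve_X0ModL
import Fermat.Agent.S28.Defs
import Fermat.Agent.S28.H145.PrimeDegree
import Fermat.Agent.S28.H626.Upper

set_option autoImplicit false

noncomputable section

open ModularCurve HahnSeries Polynomial IntermediateField

namespace Fermat.Agent.S28.H739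

section Abstract

variable {K L : Type*} [Field K] [Field L] [Algebra K L]

/-- `[A(x) : A]` in `relrank` form. -/
theorem relrank_adjoin_simple (A : IntermediateField K L) (x : L) (hint : IsIntegral A x) :
    IntermediateField.relrank A ((IntermediateField.adjoin A {x}).restrictScalars K) =
      ((Module.finrank A (IntermediateField.adjoin A {x}) : ℕ) : Cardinal) := by
  have hA : A ≤ (IntermediateField.adjoin A {x}).restrictScalars K := by
    rw [IntermediateField.restrictScalars_adjoin_eq_sup]
    exact le_sup_left
  rw [IntermediateField.relrank_eq_rank_of_le hA]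
  have hext : IntermediateField.extendScalars hA = IntermediateField.adjoin A {x} := by
    ext y
    rw [IntermediateField.mem_extendScalars]
    rfl
  rw [hext]
  have := IntermediateField.adjoin.finiteDimensional hint
  rw [Module.finrank_eq_rank]

/-- A family of `n` elements of `B`, linearly independent over `A ≤ B`, bounds `[B : A]` from
below. -/
theorem le_relrank_of_linearIndependent (A B : IntermediateField K L) (hAB : A ≤ B)
    {n : ℕ} (v : Fin n → L) (hv : ∀ i, v i ∈ B) (hli : LinearIndependent A v) :
    (n : Cardinal) ≤ IntermediateField.relrank A B := by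
  rw [IntermediateField.relrank_eq_rank_of_le hAB]
  let w : Fin n → IntermediateField.extendScalars hAB := fun i => ⟨v i, hv i⟩
  have hw : LinearIndependent A w := by
    refine LinearIndependent.of_comp ((IntermediateField.extendScalars hAB).val.toLinearMap) ?_
    exact hli
  have := hw.cardinal_lift_le_rank
  simpa using this

end Abstract

section Step

variable {k : Type*} [Field k]

theorem jField_le_full (N : ℕ) [NeZero N] : jField k ≤ modularFunctionFieldFullC k N :=
  H626.adjoin_j_le_full (k := k) N

/-- `1, j, …, j^{p-1}` are linearly independent over any intermediate field contained in the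
range of `V_p`. -/
theorem linearIndependent_pow_j (p : ℕ) [NeZero p]
    (B : IntermediateField k (LaurentSeries k))
    (hB : ∀ b ∈ B, b ∈ (qExpand k p).range) :
    LinearIndependent B (fun i : Fin p => (jqModC k) ^ (i : ℕ)) := by
  rw [Fintype.linearIndependent_iff]
  intro g hg i
  choose c hc using fun i => hB (g i) (g i).2
  have h : ∑ i : Fin p, qExpand k p (c i) * (jqModC k) ^ (i : ℕ) = 0 := by
    rw [← hg]
    refine Finset.sum_congr rfl fun i _ => ?_
    rw [hc i]
    rfl
  have := H145.eq_zero_of_sum_qExpand_mul_pow_eq_zero p (jqModC k)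
    (H145.jqModC_ne_zero' k) (H145.isCoprime_order_jqModC k p) c h i
  apply Subtype.ext
  rw [← hc i, this, map_zero]
  rfl

/-- `k(j) ⊔ k(j_p)` is `k(j)(j_p)`. -/
theorem restrictScalars_adjoin_jp (p : ℕ) [NeZero p] :
    (IntermediateField.adjoin (jField k) {qExpand k p (jqModC k)}).restrictScalars k =
      jField k ⊔ H145.jpField k p := by
  rw [IntermediateField.restrictScalars_adjoin_eq_sup, H145.jpField_eq_adjoin]

/-- `k(j) ⊔ k(j_p)` is `k(j_p)(j)`. -/
theorem restrictScalars_adjoin_j (p : ℕ) [NeZero p] :
    (IntermediateField.adjoin (H145.jpField k p) {jqModC k}).restrictScalars k =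
      jField k ⊔ H145.jpField k p := by
  rw [IntermediateField.restrictScalars_adjoin_eq_sup, sup_comm]
  rfl

/-- `[k(j, j_p) : k(j)] = p + 1`, `relrank` form. -/
theorem relrank_jField_sup (p : ℕ) [NeZero p]
    (hp : 2 ≤ p) (Φ : ModPolyData p) (hB1 : qExpand k p (jqModC k) ∉ jField k) :
    IntermediateField.relrank (jField k) (jField k ⊔ H145.jpField k p) =
      ((p + 1 : ℕ) : Cardinal) := by
  rw [← restrictScalars_adjoin_jp, relrank_adjoin_simple (jField k) _
    (H145.isIntegral_jp_over_jField (k := k) Φ), H145.finrank_adjoin_jp_over_jField Φ hp hB1]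

/-- `[k(j, j_p) : k(j_p)] = p + 1`, `relrank` form. -/
theorem relrank_jpField_sup (p : ℕ) [NeZero p]
    (hp : 2 ≤ p) (Φ : ModPolyData p) (hB1 : qExpand k p (jqModC k) ∉ jField k) :
    IntermediateField.relrank (H145.jpField k p) (jField k ⊔ H145.jpField k p) =
      ((p + 1 : ℕ) : Cardinal) := by
  rw [← restrictScalars_adjoin_j, relrank_adjoin_simple (H145.jpField k p) _
    (H145.isIntegral_j_over_jpField (k := k) Φ), H145.finrank_adjoin_j_over_jpField Φ hp hB1]

/-- At prime level the full field is `k(j, j_p)`. -/
theorem full_prime_eq (p : ℕ) [NeZero p] (hp : p.Prime) :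
    modularFunctionFieldFullC k p = jField k ⊔ H145.jpField k p := by
  apply le_antisymm
  · refine H626.full_le_of_forall_mem p _ ?_
    intro d _ hd
    rcases (Nat.dvd_prime hp).mp hd with h | h
    · rw [H626.jd_congr k h, H626.jd_one]
      exact (le_sup_left : jField k ≤ _) H145.jqModC_mem_jField
    · rw [H626.jd_congr k h]
      exact (le_sup_right : H145.jpField k p ≤ _) H145.jp_mem_jpField
  · refine sup_le (jField_le_full p) ?_
    rw [H145.jpField_eq_adjoin, IntermediateField.adjoin_le_iff]
    intro y hy
    rw [Set.mem_singleton_iff] at hy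
    rw [hy]
    exact jqModCd_mem_full k p dvd_rfl

/-- `[k(j, j_p) : k(j)] = p + 1` for the full field of prime level. -/
theorem relrank_full_prime (p : ℕ) [NeZero p] (hp : p.Prime) (Φ : ModPolyData p)
    (hB1 : qExpand k p (jqModC k) ∉ jField k) :
    IntermediateField.relrank (jField k) (modularFunctionFieldFullC k p) =
      ((p + 1 : ℕ) : Cardinal) := by
  rw [full_prime_eq p hp]
  exact relrank_jField_sup p hp.two_le Φ hB1

/-- **Tower step (lower bound).** -/
theorem mul_relrank_le_relrank_mul (M p : ℕ) [NeZero M] [NeZero p] [NeZero (M * p)]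
    (hp : 2 ≤ p) (Φ : ModPolyData p) (hB1 : qExpand k p (jqModC k) ∉ jField k) :
    (p : Cardinal) * IntermediateField.relrank (jField k) (modularFunctionFieldFullC k M) ≤
      IntermediateField.relrank (jField k) (modularFunctionFieldFullC k (M * p)) := by
  set J := jField k with hJ
  set A := H145.jpField k p with hA
  set E := modularFunctionFieldFullC k M with hE
  set E' := modularFunctionFieldFullC k (M * p) with hE'
  set B := E.map (qExpandAlgHomC k p) with hB
  -- inclusions
  have hJE : J ≤ E := jField_le_full M
  have hJE' : J ≤ E' := jField_le_full (M * p)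
  have hAB : A ≤ B := IntermediateField.map_mono _ hJE
  have hBE' : B ≤ E' := full_degeneracyC_map_le k M p
  have hAE' : A ≤ E' := hAB.trans hBE'
  -- the field `P = k(j, j_p)`
  have hPE' : J ⊔ A ≤ E' := sup_le hJE' hAE'
  -- the two prime-level degrees
  have h1 : IntermediateField.relrank J (J ⊔ A) = ((p + 1 : ℕ) : Cardinal) :=
    relrank_jField_sup p hp Φ hB1
  have h2 : IntermediateField.relrank A (J ⊔ A) = ((p + 1 : ℕ) : Cardinal) :=
    relrank_jpField_sup p hp Φ hB1
  -- transport along `V_p`
  have h3 : IntermediateField.relrank A B = IntermediateField.relrank J E :=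
    IntermediateField.relrank_map_map J E (qExpandAlgHomC k p)
  -- the `p` powers of `j`
  have h4 : (p : Cardinal) ≤ IntermediateField.relrank B E' := by
    refine le_relrank_of_linearIndependent B E' hBE' (fun i : Fin p => (jqModC k) ^ (i : ℕ))
      (fun i => pow_mem (jqModC_mem_full k (M * p)) _) ?_
    refine linearIndependent_pow_j p B ?_
    intro b hb
    obtain ⟨x, -, rfl⟩ := (IntermediateField.mem_map _).mp hb
    exact ⟨x, rfl⟩
  -- assemble
  have e1 : IntermediateField.relrank J E' =
      ((p + 1 : ℕ) : Cardinal) * IntermediateField.relrank (J ⊔ A) E' := by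
    rw [← IntermediateField.relrank_mul_relrank le_sup_left hPE', h1]
  have e2 : IntermediateField.relrank A E' =
      ((p + 1 : ℕ) : Cardinal) * IntermediateField.relrank (J ⊔ A) E' := by
    rw [← IntermediateField.relrank_mul_relrank le_sup_right hPE', h2]
  have e3 : IntermediateField.relrank A E' =
      IntermediateField.relrank J E * IntermediateField.relrank B E' := by
    rw [← IntermediateField.relrank_mul_relrank hAB hBE', h3]
  rw [e1, ← e2, e3, mul_comm]
  exact mul_le_mul' le_rfl h4

end Step

end Fermat.Agent.S28.H739

end
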