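/-
S28 helper (helper739): piece [L], the degree `[k(j(q^d) : d ∣ N) : k(j)] = ψ(N)` for every
field `k` in which `N` is invertible, from the prime-level leaves (`ModPolyData p`,
`j(q^p) ∉ k(j)`), and the resulting `ψ(N)` linearly independent elements.
-/
import Mathlib
import Fermat.Prelude.Def_ModularCurve_X0ModL
import Fermat.Agent.S28.Defs
import Fermat.Agent.S28.H739.TowerLower
import Fermat.Agent.S28.H739.Numerics

set_option autoImplicit false

noncomputable section

open ModularCurve HahnSeries Polynomial IntermediateField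

namespace Fermat.Agent.S28.H739

section Conv

theorem ev2_eq_eval₂_evalAt (Φ : Polynomial (Polynomial ℤ)) (y x : LaurentSeries ℤ) :
    H626.ev2 Φ y x = Φ.eval₂ (evalAt y) x := by
  unfold H626.ev2
  congr 1
  refine Polynomial.ringHom_ext' (Subsingleton.elim _ _) ?_
  simp [evalAt]

/-- `ModPolyData` gives the hypothesis package of helper626. -/
theorem isModPoly_of_modPolyData {p : ℕ} [NeZero p] (Φ : ModPolyData p) :
    H626.IsModPoly p Φ.Φ where
  monic := Φ.monic
  natDegree_eq := Φ.natDegree_eq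
  eval_jp := by
    rw [ev2_eq_eval₂_evalAt]
    exact Φ.eval_jp
  eval_j := by
    rw [ev2_eq_eval₂_evalAt]
    exact Φ.eval_j

theorem hasModPolys_of_modPolyData (k : Type*) [Field k] (N : ℕ)
    (hk : ∀ p : ℕ, p.Prime → p ∣ N → (p : k) ≠ 0)
    (hΦ : ∀ (p : ℕ) [NeZero p], p.Prime → p ∣ N → Nonempty (ModPolyData p)) :
    H626.HasModPolys k N := by
  intro p hp hpN
  have : NeZero p := ⟨hp.ne_zero⟩
  obtain ⟨Φ⟩ := hΦ p hp hpN
  exact ⟨hk p hp hpN, Φ.Φ, isModPoly_of_modPolyData Φ⟩

end Conv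

section Degree

variable {k : Type*} [Field k]

/-- The degree function. -/
def deg (k : Type*) [Field k] (M : ℕ) : ℕ :=
  IntermediateField.relfinrank (jField k) (modularFunctionFieldFullC k M)

theorem relrank_lt_aleph0 (M : ℕ) [NeZero M] (H : H626.HasModPolys k M) :
    IntermediateField.relrank (jField k) (modularFunctionFieldFullC k M) < Cardinal.aleph0 :=
  lt_of_le_of_lt (H626.relrank_adjoin_j_full_le M H) (Cardinal.natCast_lt_aleph0)

theorem cast_deg (M : ℕ) [NeZero M] (H : H626.HasModPolys k M) :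
    ((deg k M : ℕ) : Cardinal) =
      IntermediateField.relrank (jField k) (modularFunctionFieldFullC k M) :=
  Cardinal.cast_toNat_of_lt_aleph0 (relrank_lt_aleph0 M H)

theorem deg_one : deg k 1 = 1 := by
  unfold deg
  rw [IntermediateField.relfinrank_eq_one_iff, H626.full_one_eq]
  exact le_rfl

theorem deg_le (M : ℕ) [NeZero M] (H : H626.HasModPolys k M) : deg k M ≤ dedekindPsi M := by
  have h := H626.relrank_adjoin_j_full_le M H
  have h2 : ((deg k M : ℕ) : Cardinal) ≤ ((dedekindPsi M : ℕ) : Cardinal) := by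
    rw [cast_deg M H]
    exact h
  exact_mod_cast h2

theorem deg_dvd {M M' : ℕ} [NeZero M] [NeZero M'] (h : M ∣ M') : deg k M ∣ deg k M' := by
  unfold deg
  exact Dvd.intro _ (IntermediateField.relfinrank_mul_relfinrank (jField_le_full M)
    (full_degeneracyC_le k h))

theorem deg_step (M p : ℕ) [NeZero M] [NeZero p] [NeZero (M * p)]
    (H : H626.HasModPolys k (M * p))
    (hp : 2 ≤ p) (Φ : ModPolyData p) (hB1 : qExpand k p (jqModC k) ∉ jField k) :
    p * deg k M ≤ deg k (M * p) := by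
  have h := mul_relrank_le_relrank_mul (k := k) M p hp Φ hB1
  rw [← cast_deg M (H.mono (Dvd.intro p rfl)), ← cast_deg (M * p) H] at h
  exact_mod_cast h

theorem deg_prime (p : ℕ) [NeZero p] (hp : p.Prime) (Φ : ModPolyData p)
    (hB1 : qExpand k p (jqModC k) ∉ jField k) : deg k p = p + 1 := by
  unfold deg
  rw [IntermediateField.relfinrank_eq_toNat_relrank, relrank_full_prime p hp Φ hB1,
    Cardinal.toNat_natCast]

/-- **Degree theorem.** `[k(j(q^d) : d ∣ N) : k(j)] = ψ(N)`. -/
theorem deg_eq_dedekindPsi (N : ℕ) [NeZero N]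
    (hk : ∀ p : ℕ, p.Prime → p ∣ N → (p : k) ≠ 0)
    (hΦ : ∀ (p : ℕ) [NeZero p], p.Prime → p ∣ N → Nonempty (ModPolyData p))
    (hB1 : ∀ (p : ℕ) [NeZero p], p.Prime → p ∣ N → qExpand k p (jqModC k) ∉ jField k) :
    deg k N = dedekindPsi N := by
  have H : H626.HasModPolys k N := hasModPolys_of_modPolyData k N hk hΦ
  have hN0 : N ≠ 0 := NeZero.ne N
  have hne : ∀ M, M ∣ N → M ≠ 0 := fun M hM h0 =>
    hN0 (Nat.eq_zero_of_zero_dvd (h0 ▸ hM))
  refine degree_eq_dedekindPsi (deg k) N hN0 deg_one ?_ ?_ ?_ ?_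
  · intro M hM
    have : NeZero M := ⟨hne M hM⟩
    exact deg_le M (H.mono hM)
  · intro M M' hMM' hM'
    have : NeZero M' := ⟨hne M' hM'⟩
    have : NeZero M := ⟨hne M (hMM'.trans hM')⟩
    exact deg_dvd hMM'
  · intro M p hp hMp
    have : NeZero (M * p) := ⟨hne _ hMp⟩
    have : NeZero M := ⟨fun h => (hne _ hMp) (by rw [h, zero_mul])⟩
    have : NeZero p := ⟨hp.ne_zero⟩
    have hpN : p ∣ N := (Dvd.intro_left M rfl).trans hMp
    obtain ⟨Φ⟩ := hΦ p hp hpN
    exact deg_step M p (H.mono hMp) hp.two_le Φ (hB1 p hp hpN)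
  · intro p hp hpN
    have : NeZero p := ⟨hp.ne_zero⟩
    obtain ⟨Φ⟩ := hΦ p hp hpN
    exact deg_prime p hp Φ (hB1 p hp hpN)

/-- **Lower bound, linear-independence form.** There are `ψ(N)` elements of
`k(j(q^d) : d ∣ N)` which are linearly independent over `k(j)`. -/
theorem exists_linearIndependent_full (N : ℕ) [NeZero N]
    (hk : ∀ p : ℕ, p.Prime → p ∣ N → (p : k) ≠ 0)
    (hΦ : ∀ (p : ℕ) [NeZero p], p.Prime → p ∣ N → Nonempty (ModPolyData p))
    (hB1 : ∀ (p : ℕ) [NeZero p], p.Prime → p ∣ N → qExpand k p (jqModC k) ∉ jField k) :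
    ∃ x : Fin (dedekindPsi N) → LaurentSeries k,
      (∀ i, x i ∈ modularFunctionFieldFullC k N) ∧ LinearIndependent (jField k) x := by
  have hdeg := deg_eq_dedekindPsi (k := k) N hk hΦ hB1
  unfold deg at hdeg
  rw [IntermediateField.relfinrank_eq_finrank_of_le (jField_le_full N)] at hdeg
  obtain ⟨f, hf⟩ := exists_linearIndependent_of_le_finrank (le_of_eq hdeg.symm)
  refine ⟨fun i => (f i : LaurentSeries k), fun i => (f i).2, ?_⟩
  have := hf.map' ((IntermediateField.extendScalars (jField_le_full (k := k) N)).val.toLinearMap)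
    (LinearMap.ker_eq_bot.mpr (fun a b hab => Subtype.ext hab))
  exact this

end Degree

end Fermat.Agent.S28.H739

end
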