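/-
S28 helper (helper739): piece [L], assembly.  `CoreData N K` for every field `K` of
characteristic `ℓ ∤ N`, from the prime-level analytic leaves (`ModPolyData p`, `UnitPolyData p`
for the primes `p ∣ N`, and the `θ`-identity).  Uses: glue + reduction (helper325), upper bound
(helper626), prime-level degree (helper145, helper88), and the lower bound of this directory.
-/
import Mathlib
import Fermat.Prelude.Def_ModularCurve_X0ModL
import Fermat.Agent.S28.Defs
import Fermat.Agent.S28.H88.PrimeLevel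
import Fermat.Agent.S28.H325.Glue
import Fermat.Agent.S28.H626.Upper
import Fermat.Agent.S28.H739.LowerBound
import Fermat.Agent.S28.H739.Integrality

set_option autoImplicit false

noncomputable section

open ModularCurve HahnSeries Polynomial

namespace Fermat.Agent.S28.H739

/-- A prime `p ∣ N` is invertible in a field of characteristic `ℓ ∤ N`. -/
theorem natCast_ne_zero_of_dvd (N : ℕ) (ℓ : ℕ) (hℓN : ¬ ℓ ∣ N) (K : Type*) [Field K] [CharP K ℓ]
    (p : ℕ) (hpN : p ∣ N) : (p : K) ≠ 0 := by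
  intro h
  exact hℓN (((CharP.cast_eq_zero_iff K ℓ p).mp h).trans hpN)

/-- **[L], against explicit leaves.** -/
theorem coreData_of_leaves (N : ℕ) [NeZero N] (ℓ : ℕ) (hℓN : ¬ ℓ ∣ N)
    (K : Type) [Field K] [CharP K ℓ]
    (hΦ : ∀ (p : ℕ) [NeZero p], p.Prime → p ∣ N → Nonempty (ModPolyData p))
    (hW : ∀ (p : ℕ) [NeZero p], p.Prime → p ∣ N → Nonempty (UnitPolyData p))
    (hθ : (thetaL ℤ (jqModC ℤ)) ^ 6 = deltaL ℤ * (jqModC ℤ) ^ 4 * (jqModC ℤ - 1728) ^ 3) :
    CoreData N K := by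
  have hk : ∀ p : ℕ, p.Prime → p ∣ N → (p : K) ≠ 0 := fun p _ hpN =>
    natCast_ne_zero_of_dvd N ℓ hℓN K p hpN
  have hB1 : ∀ (p : ℕ) [NeZero p], p.Prime → p ∣ N → qExpand K p (jqModC K) ∉ jField K := by
    intro p _ hp hpN
    obtain ⟨W⟩ := hW p hp hpN
    exact h88_jp_not_mem_jField K p (hk p hp hpN) hp.one_lt W hθ
  have HQ : H626.HasModPolys ℚ N :=
    hasModPolys_of_modPolyData ℚ N (fun p hp _ => Nat.cast_ne_zero.mpr hp.ne_zero) hΦ
  refine H325.coreData_of_bounds N K (RingHom.id K) (dedekindPsi N)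
    (exists_monic_of_modPolyData N hΦ) ?_ (exists_linearIndependent_full N hk hΦ hB1)
  intro m x hx hli
  have := H626.card_le_of_linearIndependent (k := ℚ) N HQ x hx hli
  simpa using this

/-- **[L]** in the shape of the captain stub, with the two open analytic leaves as hypotheses
(in the exact shape of the stubs of `Analytic.lean`). -/
theorem coreData_of_analytic
    (hΦ : ∀ (p : ℕ) [NeZero p], p.Prime → Nonempty (ModPolyData p))
    (hW : ∀ (p : ℕ) [NeZero p], p.Prime → Nonempty (UnitPolyData p))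
    (hθ : (thetaL ℤ (jqModC ℤ)) ^ 6 = deltaL ℤ * (jqModC ℤ) ^ 4 * (jqModC ℤ - 1728) ^ 3)
    (N : ℕ) [NeZero N] (ℓ : ℕ) [Fact ℓ.Prime] (hℓN : ¬ ℓ ∣ N)
    (K : Type) [Field K] [CharP K ℓ] : CoreData N K :=
  coreData_of_leaves N ℓ hℓN K (fun p _ hp _ => hΦ p hp) (fun p _ hp _ => hW p hp) hθ

end Fermat.Agent.S28.H739

end
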